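import Fermat.Agent.Common.PlaceBridgeKummer
import Fermat.Agent.Cheb.Count
import Fermat.Agent.Cheb.Cyclo

/-!
# S36 [K0]: the inertia field `K₀ = ℚ̄^{I_A}` and its discrete valuation ring
-/

set_option autoImplicit false

namespace Fermat.Agent.S36

open scoped Pointwise NumberField
open Ideal Fermat.Agent.Bridge Fermat.Agent.Cheb

local notation "Qbar" => AlgebraicClosure ℚ
local notation "GQ" => (AlgebraicClosure ℚ ≃ₐ[ℚ] AlgebraicClosure ℚ)

section NF

variable {L : Type*} [Field L] [NumberField L] [IsGalois ℚ L]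

/-- The prime below `P` in the inertia field of `P` is unramified over `ℤ`. -/
theorem ramificationIdx_under_inertiaField (P : Ideal (𝓞 L)) [P.IsPrime] :
    (P.under (𝓞 (fixF L (P.inertia Gal(L/ℚ))))).ramificationIdx ℤ = 1 := by
  set I := P.inertia Gal(L/ℚ) with hI
  set PE := P.under (𝓞 (fixF L I)) with hPE
  have h1 : P.ramificationIdx ℤ = PE.ramificationIdx ℤ * P.ramificationIdx (𝓞 (fixF L I)) :=
    ramificationIdx_tower PE P
  have h2 : Nat.card I = P.ramificationIdx ℤ := by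
    rw [hI, Ideal.card_inertia_eq_ramificationIdxIn (P.under ℤ) P,
      Ideal.ramificationIdxIn_eq_ramificationIdx _ P Gal(L/ℚ)]
  have h3 : Nat.card (P.inertia I) = P.ramificationIdx (𝓞 (fixF L I)) := by
    rw [Ideal.card_inertia_eq_ramificationIdxIn PE P,
      Ideal.ramificationIdxIn_eq_ramificationIdx _ P I]
  have h4 : Nat.card (P.inertia I) = Nat.card I := by
    have : P.inertia I = ⊤ := by
      rw [Ideal.inertia, ← AddSubgroup.subgroupOf_inertia]
      exact Subgroup.subgroupOf_self I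
    rw [this, Subgroup.card_top]
  have h5 : 0 < Nat.card I := Nat.card_pos
  rw [← h3, h4, ← h2] at h1
  exact (Nat.eq_of_mul_eq_mul_right h5 (by rw [one_mul]; exact h1)).symm

end NF

section Val

variable {A : ValuationSubring Qbar} {q : ℕ}

/-- **[K0] (i)**: the value group of the inertia field is generated by the valuation of `q`. -/
theorem exists_zpow_of_inertia_fixed (hq : q.Prime) (hA : A.LiesOverPrime q) {x : Qbar}
    (hx0 : x ≠ 0) (hx : ∀ σ ∈ A.inertiaSubgroupIn ℚ, σ x = x) :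
    ∃ n : ℤ, A.valuation x = A.valuation (q : Qbar) ^ n := by
  have hfd : FiniteDimensional ℚ (IntermediateField.adjoin ℚ {x}) :=
    IntermediateField.adjoin.finiteDimensional
      ((AlgebraicClosure.isAlgebraic ℚ).isAlgebraic x).isIntegral
  obtain ⟨L, _, _, _, φ, hφ⟩ := exists_galois_model (IntermediateField.adjoin ℚ {x})
  obtain ⟨x', rfl⟩ := hφ x (IntermediateField.mem_adjoin_simple_self ℚ x)
  set P := primeBelow φ A with hP
  set I := P.inertia Gal(L/ℚ) with hI
  have hmem : x' ∈ fixF L I := by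
    rintro ⟨τ, hτ⟩
    obtain ⟨σ, hσ, h⟩ := exists_lift_of_mem_inertia hq hA hτ
    apply φ.injective
    show φ (τ x') = φ x'
    rw [← h, hx σ hσ]
  set φE : fixF L I →+* Qbar := φ.comp (algebraMap (fixF L I) L) with hφE
  have hPE : primeBelow φE A = P.under (𝓞 (fixF L I)) := by
    ext c
    rw [mem_primeBelow_iff, Ideal.mem_comap, hP, mem_primeBelow_iff]
    rfl
  have hunr : Algebra.IsUnramifiedAt ℤ (primeBelow φE A) := by
    rw [← Ideal.ramificationIdx_eq_one_iff, hPE]
    exact ramificationIdx_under_inertiaField P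
  have hne : (⟨x', hmem⟩ : fixF L I) ≠ 0 := by
    intro h0
    apply hx0
    have : x' = 0 := congrArg Subtype.val h0
    rw [this, map_zero]
  exact exists_zpow_of_isUnramifiedAt (φ := φE) hq hA hunr hne

/-- Every unit of `A` is congruent to a root of unity of order prime to `q`. -/
theorem exists_pow_sub_one_lt (hq : q.Prime) (hA : A.LiesOverPrime q) {a : Qbar}
    (ha : A.valuation a = 1) : ∃ n : ℕ, 0 < n ∧ ¬ q ∣ n ∧ A.valuation (a ^ n - 1) < 1 := by
  obtain ⟨σ, hσ⟩ := Fermat.Agent.S54.exists_isFrobeniusAt_of_liesOverPrime hq A hA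
  set g : A.decompositionSubgroup ℚ := ⟨σ, hσ.mem_decompositionSubgroup⟩ with hg
  have hpow : ∀ (f : ℕ) (x : IsLocalRing.ResidueField A), g ^ f • x = x ^ (q ^ f) := by
    intro f
    induction f with
    | zero => intro x; simp
    | succ f ih =>
      intro x
      rw [pow_succ, mul_smul, hσ.smul_residue_eq x, ih, ← pow_mul, pow_succ, mul_comm]
  obtain ⟨f, hf0, hf⟩ := exists_pow_apply_eq σ a
  have haA : a ∈ A := (A.valuation_le_one_iff a).mp ha.le
  set a' : A := ⟨a, haA⟩ with ha'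
  have hfix : g ^ f • a' = a' := by
    apply Subtype.ext
    show ((g ^ f : A.decompositionSubgroup ℚ) : GQ) a = a
    rw [Subgroup.coe_pow]
    exact hf
  have hres : IsLocalRing.residue A a' ^ (q ^ f) = IsLocalRing.residue A a' := by
    rw [← hpow, ← IsLocalRing.ResidueField.residue_smul, hfix]
  have hunit : IsLocalRing.residue A a' ≠ 0 := by
    rw [Ne, IsLocalRing.residue_eq_zero_iff, IsLocalRing.mem_maximalIdeal, mem_nonunits_iff,
      not_not]
    exact (A.valuation_eq_one_iff a').mpr ha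
  have hq1 : 1 < q ^ f := Nat.one_lt_pow hf0.ne' hq.one_lt
  refine ⟨q ^ f - 1, by omega, ?_, ?_⟩
  · intro hdvd
    have h1 : q ∣ q ^ f := dvd_pow_self q hf0.ne'
    have h2 : q ∣ 1 := by
      have := (Nat.dvd_sub h1 hdvd)
      rwa [Nat.sub_sub_self hq1.le] at this
    exact hq.one_lt.ne' (Nat.dvd_one.mp h2)
  · have h3 : IsLocalRing.residue A a' ^ (q ^ f - 1) = 1 := by
      have h4 : IsLocalRing.residue A a' ^ (q ^ f - 1) * IsLocalRing.residue A a'
          = 1 * IsLocalRing.residue A a' := by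
        rw [← pow_succ, Nat.sub_add_cancel hq1.le, hres, one_mul]
      exact mul_right_cancel₀ hunit h4
    have h5 : IsLocalRing.residue A (a' ^ (q ^ f - 1) - 1) = 0 := by
      rw [map_sub, map_pow, h3, map_one, sub_self]
    rw [IsLocalRing.residue_eq_zero_iff] at h5
    exact (A.valuation_lt_one_iff _).mp h5

/-- **[K0] (ii)**: every residue class of `A` has a representative fixed by inertia. -/
theorem exists_inertia_fixed_residue (hq : q.Prime) (hA : A.LiesOverPrime q) {a : Qbar}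
    (ha : A.valuation a ≤ 1) :
    ∃ b : Qbar, (∀ σ ∈ A.inertiaSubgroupIn ℚ, σ b = b) ∧ A.valuation b ≤ 1 ∧
      A.valuation (a - b) < 1 := by
  rcases ha.lt_or_eq with h | h
  · exact ⟨0, fun σ _ => map_zero σ, by simp, by simpa using h⟩
  obtain ⟨n, hn0, hqn, hn⟩ := exists_pow_sub_one_lt hq hA h
  have : NeZero n := ⟨hn0.ne'⟩
  obtain ⟨ζ, hζ⟩ := HasEnoughRootsOfUnity.exists_primitiveRoot Qbar n
  have hprod : a ^ n - 1 = ∏ μ ∈ Polynomial.nthRootsFinset n (1 : Qbar), (a - μ) := by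
    have := congrArg (Polynomial.eval a) (Polynomial.X_pow_sub_one_eq_prod hn0 hζ)
    simpa [Polynomial.eval_prod] using this
  have hex : ∃ μ ∈ Polynomial.nthRootsFinset n (1 : Qbar), A.valuation (a - μ) < 1 := by
    by_contra hcon
    push Not at hcon
    have h1 : (1 : _) ≤ A.valuation (a ^ n - 1) := by
      rw [hprod, map_prod]
      exact Finset.one_le_prod' hcon
    exact absurd hn (not_lt.mpr h1)
  obtain ⟨μ, hμ, hlt⟩ := hex
  have hμn : μ ^ n = 1 := (Polynomial.mem_nthRootsFinset hn0 1).mp hμ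
  refine ⟨μ, fun σ hσ => apply_rootOfUnity_of_mem_inertia hq hA hqn hσ hμn, ?_, hlt⟩
  exact (valuation_eq_one_of_pow_eq_one hn0.ne' hμn).le

end Val

section Ring

variable (A : ValuationSubring Qbar)

/-- The inertia field `K₀ = ℚ̄^{I_A}`. -/
noncomputable def K0 : IntermediateField ℚ Qbar :=
  IntermediateField.fixedField (A.inertiaSubgroupIn ℚ)

variable {A}

theorem mem_K0 {x : Qbar} : x ∈ K0 A ↔ ∀ σ ∈ A.inertiaSubgroupIn ℚ, σ x = x := by
  rw [K0, IntermediateField.mem_fixedField_iff]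

variable (A)

/-- `R₀ = A ∩ K₀`, a valuation subring of `K₀`. -/
noncomputable def R0 : ValuationSubring (K0 A) := A.comap (algebraMap (K0 A) Qbar)

variable {A}

theorem mem_R0 {x : K0 A} : x ∈ R0 A ↔ A.valuation (x : Qbar) ≤ 1 := by
  rw [R0, ValuationSubring.mem_comap, ← A.valuation_le_one_iff]
  rfl

theorem valuation_R0_le_one (y : R0 A) : A.valuation (((y : K0 A)) : Qbar) ≤ 1 := mem_R0.mp y.2

theorem isUnit_R0_iff (y : R0 A) : IsUnit y ↔ A.valuation (((y : K0 A)) : Qbar) = 1 := by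
  constructor
  · rintro ⟨u, rfl⟩
    have h1 := valuation_R0_le_one (u : R0 A)
    have h2 := valuation_R0_le_one ((u⁻¹ : (R0 A)ˣ) : R0 A)
    have h3 : A.valuation ((((u : R0 A) : K0 A)) : Qbar)
        * A.valuation (((((u⁻¹ : (R0 A)ˣ) : R0 A) : K0 A)) : Qbar) = 1 := by
      rw [← map_mul]
      have : (u : R0 A) * ((u⁻¹ : (R0 A)ˣ) : R0 A) = 1 := u.mul_inv
      have h4 := congrArg (fun z : R0 A => (((z : K0 A)) : Qbar)) this
      simp only [MulMemClass.coe_mul, OneMemClass.coe_one] at h4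
      rw [h4, map_one]
    refine le_antisymm h1 ?_
    by_contra hlt
    push Not at hlt
    have : A.valuation ((((u : R0 A) : K0 A)) : Qbar)
        * A.valuation (((((u⁻¹ : (R0 A)ˣ) : R0 A) : K0 A)) : Qbar) < 1 :=
      mul_lt_one_of_lt_of_le hlt h2
    exact this.ne h3
  · intro h
    have hy0 : (y : K0 A) ≠ 0 := by
      intro h0
      rw [h0] at h
      simp at h
    have hinv : (y : K0 A)⁻¹ ∈ R0 A := by
      rw [mem_R0]
      show A.valuation ((((y : K0 A)) : Qbar)⁻¹) ≤ 1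
      rw [map_inv₀, h, inv_one]
    refine IsUnit.of_mul_eq_one ⟨(y : K0 A)⁻¹, hinv⟩ ?_
    exact Subtype.ext (mul_inv_cancel₀ hy0)

variable {q : ℕ}

theorem exists_associated_pow (hq : q.Prime) (hA : A.LiesOverPrime q) {x : R0 A} (hx : x ≠ 0) :
    ∃ n : ℕ, Associated ((q : R0 A) ^ n) x := by
  have hx0 : (((x : K0 A)) : Qbar) ≠ 0 := fun h => hx (Subtype.ext (Subtype.ext h))
  obtain ⟨n, hn⟩ := exists_zpow_of_inertia_fixed hq hA hx0 (mem_K0.mp (x : K0 A).2)
  have hq1 : A.valuation (q : Qbar) < 1 := A.mem_nonunits_iff.mp hA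
  have hq0 : A.valuation (q : Qbar) ≠ 0 :=
    (A.valuation.ne_zero_iff).mpr (by exact_mod_cast hq.ne_zero)
  have hn0 : 0 ≤ n := by
    by_contra hneg
    push Not at hneg
    have h1 := valuation_R0_le_one x
    rw [hn] at h1
    have h2 : 1 < A.valuation (q : Qbar) ^ n :=
      one_lt_zpow_of_neg₀ (zero_lt_iff.mpr hq0) hq1 hneg
    exact absurd h1 (not_le.mpr h2)
  obtain ⟨k, rfl⟩ := Int.eq_ofNat_of_zero_le hn0
  rw [zpow_natCast] at hn
  have hqK : (q : K0 A) ≠ 0 := by exact_mod_cast hq.ne_zero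
  have hu : (x : K0 A) * ((q : K0 A) ^ k)⁻¹ ∈ R0 A := by
    rw [mem_R0]
    show A.valuation ((((x : K0 A)) : Qbar) * (((q : K0 A) : Qbar) ^ k)⁻¹) ≤ 1
    rw [map_mul, map_inv₀, map_pow, hn]
    show A.valuation (q : Qbar) ^ k * (A.valuation (q : Qbar) ^ k)⁻¹ ≤ 1
    rw [mul_inv_cancel₀ (pow_ne_zero k hq0)]
  have hunit : IsUnit (⟨_, hu⟩ : R0 A) := by
    rw [isUnit_R0_iff]
    show A.valuation ((((x : K0 A)) : Qbar) * (((q : K0 A) : Qbar) ^ k)⁻¹) = 1
    rw [map_mul, map_inv₀, map_pow, hn]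
    show A.valuation (q : Qbar) ^ k * (A.valuation (q : Qbar) ^ k)⁻¹ = 1
    rw [mul_inv_cancel₀ (pow_ne_zero k hq0)]
  obtain ⟨u, hu'⟩ := hunit
  refine ⟨k, u, ?_⟩
  rw [hu']
  apply Subtype.ext
  show (q : K0 A) ^ k * ((x : K0 A) * ((q : K0 A) ^ k)⁻¹) = x
  field_simp

theorem not_isUnit_natCast (hA : A.LiesOverPrime q) : ¬ IsUnit (q : R0 A) := by
  rw [isUnit_R0_iff]
  have hq1 : A.valuation (q : Qbar) < 1 := A.mem_nonunits_iff.mp hA
  exact hq1.ne

theorem irreducible_natCast (hq : q.Prime) (hA : A.LiesOverPrime q) :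
    Irreducible (q : R0 A) := by
  have hq0 : (q : R0 A) ≠ 0 := by exact_mod_cast hq.ne_zero
  refine ⟨not_isUnit_natCast hA, fun a b hab => ?_⟩
  have ha0 : a ≠ 0 := by rintro rfl; rw [zero_mul] at hab; exact hq0 hab
  have hb0 : b ≠ 0 := by rintro rfl; rw [mul_zero] at hab; exact hq0 hab
  obtain ⟨i, u, hi⟩ := exists_associated_pow hq hA ha0
  obtain ⟨j, w, hj⟩ := exists_associated_pow hq hA hb0
  rcases Nat.eq_zero_or_pos i with rfl | hi0
  · left
    rw [← hi, pow_zero, one_mul]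
    exact u.isUnit
  rcases Nat.eq_zero_or_pos j with rfl | hj0
  · right
    rw [← hj, pow_zero, one_mul]
    exact w.isUnit
  exfalso
  -- `q = q ^ (i + j) * unit` with `i + j ≥ 2`
  obtain ⟨i', rfl⟩ : ∃ i', i = i' + 1 := ⟨i - 1, by omega⟩
  have h1 : (q : R0 A) * 1 = (q : R0 A) * ((q : R0 A) ^ (i' + j) * (u * w)) := by
    rw [mul_one]
    conv_lhs => rw [hab, ← hi, ← hj]
    ring
  have h2 := mul_left_cancel₀ hq0 h1
  have h3 : IsUnit ((q : R0 A) ^ (i' + j)) := IsUnit.of_mul_eq_one _ h2.symm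
  exact not_isUnit_natCast hA ((isUnit_pow_iff (by omega)).mp h3)

/-- **[K0] (iii)**: `R₀` is a discrete valuation ring with uniformiser `q`. -/
theorem isDiscreteValuationRing_R0 (hq : q.Prime) (hA : A.LiesOverPrime q) :
    IsDiscreteValuationRing (R0 A) :=
  IsDiscreteValuationRing.ofHasUnitMulPowIrreducibleFactorization
    ⟨(q : R0 A), irreducible_natCast hq hA, fun hx => exists_associated_pow hq hA hx⟩

theorem maximalIdeal_R0 (hq : q.Prime) (hA : A.LiesOverPrime q) :
    IsLocalRing.maximalIdeal (R0 A) = Ideal.span {(q : R0 A)} := by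
  have := isDiscreteValuationRing_R0 hq hA
  exact (IsDiscreteValuationRing.irreducible_iff_uniformizer _).mp (irreducible_natCast hq hA)

/-- The inclusion `R₀ → A`. -/
noncomputable def inclR0 (A : ValuationSubring Qbar) : R0 A →+* A where
  toFun y := ⟨((y : K0 A) : Qbar), (A.valuation_le_one_iff _).mp (valuation_R0_le_one y)⟩
  map_one' := rfl
  map_mul' _ _ := rfl
  map_zero' := rfl
  map_add' _ _ := rfl

@[simp] theorem coe_inclR0 (y : R0 A) : ((inclR0 A y : A) : Qbar) = ((y : K0 A) : Qbar) := rfl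

theorem inclR0_injective : Function.Injective (inclR0 A) := fun _ _ h =>
  Subtype.ext (Subtype.ext (congrArg (fun z : A => (z : Qbar)) h))

/-- `R₀ → A → k` is surjective. -/
theorem residue_inclR0_surjective (hq : q.Prime) (hA : A.LiesOverPrime q) :
    Function.Surjective ((IsLocalRing.residue A).comp (inclR0 A)) := by
  intro x
  obtain ⟨a, rfl⟩ := IsLocalRing.residue_surjective x
  obtain ⟨b, hb1, hb2, hb3⟩ := exists_inertia_fixed_residue hq hA (A.valuation_le_one a)
  refine ⟨⟨⟨b, mem_K0.mpr hb1⟩, mem_R0.mpr hb2⟩, ?_⟩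
  rw [RingHom.comp_apply, ← sub_eq_zero, ← map_sub, IsLocalRing.residue_eq_zero_iff]
  refine (A.valuation_lt_one_iff _).mpr ?_
  show A.valuation (b - (a : Qbar)) < 1
  rw [← neg_sub, Valuation.map_neg]
  exact hb3

/-- the kernel of `R₀ → k` is `(q)` -/
theorem residue_inclR0_eq_zero_iff (hq : q.Prime) (hA : A.LiesOverPrime q) (y : R0 A) :
    IsLocalRing.residue A (inclR0 A y) = 0 ↔ (q : R0 A) ∣ y := by
  rw [← Ideal.mem_span_singleton, ← maximalIdeal_R0 hq hA, IsLocalRing.residue_eq_zero_iff,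
    IsLocalRing.mem_maximalIdeal, IsLocalRing.mem_maximalIdeal, mem_nonunits_iff, mem_nonunits_iff,
    isUnit_R0_iff, A.valuation_eq_one_iff]
  rfl

end Ring

end Fermat.Agent.S36
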