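/-
S36 / [THETA-AN], part 1 (helper31): generators of `Γ₀(3)` and `Γ₀(4)`.
`Γ₀(N) = ⟨-1, T, U_N⟩` for `N = 3, 4`, where `U_N = (1 0; N 1)` (Euclidean descent on `|c|`).
Mathlib only.
-/
import Mathlib

set_option autoImplicit false

open Matrix Matrix.SpecialLinearGroup
open scoped MatrixGroups

namespace Fermat.Agent.S36

/-- The lower unipotent matrices `(1 0; n 1)`. -/
def lowU (n : ℤ) : SL(2, ℤ) := ⟨!![1, 0; n, 1], by simp [Matrix.det_fin_two]⟩

/-- The upper unipotent matrices `(1 n; 0 1)`. -/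
def upT (n : ℤ) : SL(2, ℤ) := ⟨!![1, n; 0, 1], by simp [Matrix.det_fin_two]⟩

theorem sl2_mul_apply (g h : SL(2, ℤ)) (i j : Fin 2) :
    (g * h) i j = g i 0 * h 0 j + g i 1 * h 1 j := by
  rw [Matrix.SpecialLinearGroup.coe_mul, Matrix.mul_apply, Fin.sum_univ_two]

@[simp] theorem lowU_00 (n : ℤ) : lowU n 0 0 = 1 := rfl
@[simp] theorem lowU_01 (n : ℤ) : lowU n 0 1 = 0 := rfl
@[simp] theorem lowU_10 (n : ℤ) : lowU n 1 0 = n := rfl
@[simp] theorem lowU_11 (n : ℤ) : lowU n 1 1 = 1 := rfl
@[simp] theorem upT_00 (n : ℤ) : upT n 0 0 = 1 := rfl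
@[simp] theorem upT_01 (n : ℤ) : upT n 0 1 = n := rfl
@[simp] theorem upT_10 (n : ℤ) : upT n 1 0 = 0 := rfl
@[simp] theorem upT_11 (n : ℤ) : upT n 1 1 = 1 := rfl

theorem sl2_ext {g h : SL(2, ℤ)} (h00 : g 0 0 = h 0 0) (h01 : g 0 1 = h 0 1)
    (h10 : g 1 0 = h 1 0) (h11 : g 1 1 = h 1 1) : g = h := by
  ext i j
  fin_cases i <;> fin_cases j
  · exact h00
  · exact h01
  · exact h10
  · exact h11

theorem lowU_add (m n : ℤ) : lowU (m + n) = lowU m * lowU n := by
  apply sl2_ext <;> simp [sl2_mul_apply]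

theorem upT_add (m n : ℤ) : upT (m + n) = upT m * upT n := by
  apply sl2_ext <;> simp [sl2_mul_apply, add_comm]

theorem lowU_zero : lowU 0 = 1 := by
  apply sl2_ext <;> simp

theorem upT_zero : upT 0 = 1 := by
  apply sl2_ext <;> simp

theorem lowU_neg (n : ℤ) : lowU (-n) = (lowU n)⁻¹ := by
  rw [eq_inv_iff_mul_eq_one, ← lowU_add]; simp [lowU_zero]

theorem upT_neg (n : ℤ) : upT (-n) = (upT n)⁻¹ := by
  rw [eq_inv_iff_mul_eq_one, ← upT_add]; simp [upT_zero]

theorem lowU_mul_eq_zpow (N l : ℤ) : lowU (N * l) = lowU N ^ l := by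
  induction l using Int.induction_on with
  | zero => simp [lowU_zero]
  | succ i ih => rw [mul_add, mul_one, lowU_add, ih, _root_.zpow_add_one]
  | pred i ih => rw [mul_sub, mul_one, sub_eq_add_neg, lowU_add, ih, lowU_neg, _root_.zpow_sub_one]

theorem upT_eq_zpow (l : ℤ) : upT l = upT 1 ^ l := by
  induction l using Int.induction_on with
  | zero => simp [upT_zero]
  | succ i ih => rw [upT_add, ih, _root_.zpow_add_one]
  | pred i ih => rw [_root_.zpow_sub_one, sub_eq_add_neg, upT_add, ih, upT_neg]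

theorem upT_one : upT 1 = ModularGroup.T := by
  apply sl2_ext <;> simp [ModularGroup.T]

/-- The subgroup generated by `-1`, `T`, `U_N`. -/
def genSub (N : ℤ) : Subgroup SL(2, ℤ) := Subgroup.closure {-1, upT 1, lowU N}

theorem neg_one_mem_genSub (N : ℤ) : (-1 : SL(2, ℤ)) ∈ genSub N :=
  Subgroup.subset_closure (by simp)

theorem upT_mem_genSub (N k : ℤ) : upT k ∈ genSub N := by
  rw [upT_eq_zpow]
  exact Subgroup.zpow_mem _ (Subgroup.subset_closure (by simp)) _

theorem lowU_mem_genSub (N l : ℤ) : lowU (N * l) ∈ genSub N := by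
  rw [lowU_mul_eq_zpow]
  exact Subgroup.zpow_mem _ (Subgroup.subset_closure (by simp)) _

/-- balanced remainder: for `c ≠ 0` there is `k` with `2 |d + c k| ≤ |c|`. -/
theorem exists_balanced (d c : ℤ) (hc : c ≠ 0) : ∃ k : ℤ, 2 * |d + c * k| ≤ |c| := by
  -- use `Int.bmod`-free argument: r = d % |c| in [0,|c|)
  have hc' : 0 < |c| := abs_pos.mpr hc
  set r := d % |c| with hr
  have h0 : 0 ≤ r := Int.emod_nonneg _ hc'.ne'
  have h1 : r < |c| := Int.emod_lt_of_pos _ hc'
  have hd : d = r + |c| * (d / |c|) := by rw [hr]; exact (Int.emod_add_mul_ediv d |c|).symm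
  obtain ⟨s, hs⟩ : ∃ s : ℤ, |c| = c * s := by
    rcases abs_choice c with h | h
    · exact ⟨1, by rw [h]; ring⟩
    · exact ⟨-1, by rw [h]; ring⟩
  by_cases h2 : 2 * r ≤ |c|
  · refine ⟨-(s * (d / |c|)), ?_⟩
    have : d + c * -(s * (d / |c|)) = r := by
      have : c * -(s * (d / |c|)) = -(|c| * (d / |c|)) := by rw [hs]; ring
      rw [this]; linarith
    rw [this, abs_of_nonneg h0]; exact h2
  · refine ⟨-(s * (d / |c|)) - s, ?_⟩
    have : d + c * (-(s * (d / |c|)) - s) = r - |c| := by
      have : c * (-(s * (d / |c|)) - s) = -((c * s) * (d / |c|)) - c * s := by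
        ring
      rw [this, ← hs]; linarith
    rw [this, abs_of_nonpos (by linarith)]
    rw [not_le] at h2
    linarith

theorem mem_genSub_of_dvd_aux (N : ℤ) (hN : N = 3 ∨ N = 4) :
    ∀ (n : ℕ) (g : SL(2, ℤ)), N ∣ g 1 0 → (g 1 0).natAbs = n → g ∈ genSub N := by
  intro n
  induction n using Nat.strong_induction_on with
  | _ n ih =>
    intro g hg hn
    have hdet : g 0 0 * g 1 1 - g 0 1 * g 1 0 = 1 := by
      have := g.det_coe
      rwa [Matrix.det_fin_two] at this
    by_cases hc : g 1 0 = 0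
    · -- upper triangular
      rw [hc, mul_zero, sub_zero] at hdet
      rcases Int.eq_one_or_neg_one_of_mul_eq_one' hdet with ⟨h1, h2⟩ | ⟨h1, h2⟩
      · have : g = upT (g 0 1) := by
          apply sl2_ext <;> simp [h1, h2, hc]
        rw [this]; exact upT_mem_genSub _ _
      · have : g = -1 * upT (-(g 0 1)) := by
          apply sl2_ext <;> simp [h1, h2, hc]
        rw [this]
        exact Subgroup.mul_mem _ (neg_one_mem_genSub N) (upT_mem_genSub _ _)
    · obtain ⟨k, hk⟩ := exists_balanced (g 1 1) (g 1 0) hc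
      set d' := g 1 1 + g 1 0 * k with hd'
      -- g * T^k
      set g1 := g * upT k with hg1
      have e10 : g1 1 0 = g 1 0 := by
        simp [hg1, sl2_mul_apply]
      have e11 : g1 1 1 = d' := by
        simp [hg1, sl2_mul_apply, hd']; ring
      have hdet1 : g1 0 0 * g1 1 1 - g1 0 1 * g1 1 0 = 1 := by
        have := g1.det_coe
        rwa [Matrix.det_fin_two] at this
      have hN2 : (2 : ℤ) < N := by rcases hN with h | h <;> omega
      have hcN : N ≤ |g 1 0| := by
        have := Int.le_of_dvd (abs_pos.mpr hc) ((dvd_abs _ _).mpr hg)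
        exact this
      have hd0 : d' ≠ 0 := by
        intro h0
        rw [e11, h0, mul_zero, zero_sub, e10] at hdet1
        have : IsUnit (g 1 0) := IsUnit.of_mul_eq_one (a := g 1 0) (-(g1 0 1)) (by linarith)
        have := Int.isUnit_iff_abs_eq.mp this
        omega
      have hNd : N * d' ≠ 0 := mul_ne_zero (by omega) hd0
      obtain ⟨l, hl⟩ := exists_balanced (g 1 0) (N * d') hNd
      set c' := g 1 0 + N * d' * l with hc'
      set g2 := g1 * lowU (N * l) with hg2
      have f10 : g2 1 0 = c' := by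
        rw [hg2, sl2_mul_apply, e10, e11, hc']; simp; ring
      have hlt : |c'| < |g 1 0| := by
        rw [abs_mul] at hl
        have hNabs : |N| = N := abs_of_pos (by omega)
        rw [hNabs] at hl
        rcases hN with h | h
        · subst h
          have : 0 < |g 1 0| := abs_pos.mpr hc
          nlinarith
        · subst h
          -- need strictness: 2|d'| ≠ |c|
          have hne : 2 * |d'| ≠ |g 1 0| := by
            intro he
            -- d' divides c, and gcd = 1, so |d'| = 1, |c| = 2, contradiction with 4 ≤ |c|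
            have hdvd : d' ∣ g 1 0 := by
              have : |d'| ∣ |g 1 0| := ⟨2, by rw [← he]; ring⟩
              exact (abs_dvd_abs _ _).mp this
            obtain ⟨t, ht⟩ := hdvd
            rw [e11, e10, ht] at hdet1
            have : IsUnit d' := IsUnit.of_mul_eq_one (a := d') (g1 0 0 - g1 0 1 * t) (by linarith)
            have := Int.isUnit_iff_abs_eq.mp this
            omega
          have : 2 * |d'| < |g 1 0| := lt_of_le_of_ne hk hne
          linarith
      have hmem : g2 ∈ genSub N := by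
        refine ih (c'.natAbs) ?_ g2 ?_ (by rw [f10])
        · rw [← hn]
          zify
          exact hlt
        · rw [f10, hc']
          exact dvd_add hg ⟨d' * l, by ring⟩
      have : g = g2 * (lowU (N * l))⁻¹ * (upT k)⁻¹ := by
        rw [hg2, hg1]; group
      rw [this]
      exact Subgroup.mul_mem _ (Subgroup.mul_mem _ hmem (Subgroup.inv_mem _ (lowU_mem_genSub N l)))
        (Subgroup.inv_mem _ (upT_mem_genSub N k))

/-- `Γ₀(N) ≤ ⟨-1, T, U_N⟩` for `N = 3, 4`. -/
theorem mem_genSub_of_dvd (N : ℤ) (hN : N = 3 ∨ N = 4) (g : SL(2, ℤ)) (hg : N ∣ g 1 0) :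
    g ∈ genSub N :=
  mem_genSub_of_dvd_aux N hN _ g hg rfl

/-- Induction principle for `Γ₀(N)`, `N = 3, 4`. -/
theorem gamma0_induction (N : ℤ) (hN : N = 3 ∨ N = 4) (P : SL(2, ℤ) → Prop)
    (hneg : P (-1)) (hT : P (upT 1)) (hU : P (lowU N)) (hone : P 1)
    (hmul : ∀ a b, P a → P b → P (a * b)) (hinv : ∀ a, P a → P a⁻¹)
    (g : SL(2, ℤ)) (hg : N ∣ g 1 0) : P g := by
  have := mem_genSub_of_dvd N hN g hg
  clear hg
  induction this using Subgroup.closure_induction with
  | mem x hx =>
    rcases hx with rfl | rfl | rfl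
    · exact hneg
    · exact hT
    · exact hU
  | one => exact hone
  | mul x y _ _ hx hy => exact hmul x y hx hy
  | inv x _ hx => exact hinv x hx

end Fermat.Agent.S36
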