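/-
S36 / [THETA-AN], part 2 (helper31): transformation laws of the Dedekind eta function in the
form needed for eta quotients, the cocycle `cd`, and an abstract automorphy induction on
`Γ₀(3)`, `Γ₀(4)`.  Mathlib only.
-/
import Mathlib
import Fermat.Agent.S36.Gamma0Gen

set_option autoImplicit false

open Complex ModularForm Matrix.SpecialLinearGroup
open UpperHalfPlane hiding I
open scoped Real MatrixGroups

namespace Fermat.Agent.S36

/-! ### eta laws -/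

theorem eta_add_one (z : ℂ) : η (z + 1) = cexp (π * I / 12) * η z := by
  unfold ModularForm.eta
  have h1 : Function.Periodic.qParam 24 (z + 1) =
      cexp (π * I / 12) * Function.Periodic.qParam 24 z := by
    simp only [Function.Periodic.qParam]
    rw [← Complex.exp_add]
    congr 1
    push_cast
    ring
  have h2 : ∀ n, eta_q n (z + 1) = eta_q n z := by
    intro n
    simp only [eta_q, Function.Periodic.qParam]
    congr 1
    have : 2 * (π : ℂ) * I * (z + 1) / ((1 : ℝ) : ℂ) = 2 * π * I * z / ((1 : ℝ) : ℂ) + 2 * π * I := by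
      push_cast; ring
    rw [this, Complex.exp_add, Complex.exp_two_pi_mul_I, mul_one]
  rw [h1]
  simp_rw [h2]
  ring

theorem eta_add_nat (z : ℂ) (n : ℕ) : η (z + n) = cexp (π * I / 12) ^ n * η z := by
  induction n with
  | zero => simp
  | succ n ih =>
    rw [Nat.cast_succ, ← add_assoc, eta_add_one, ih, pow_succ]; ring

theorem sqrt_sq' (z : ℂ) : Complex.sqrt z ^ 2 = z := by
  unfold Complex.sqrt
  rw [← Complex.cpow_nat_mul]
  simp

theorem sqrt_ne_zero' {z : ℂ} (hz : z ≠ 0) : Complex.sqrt z ≠ 0 := by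
  intro h
  have := sqrt_sq' z
  rw [h] at this
  exact hz (by simpa using this.symm)

theorem sqrt_ofReal_mul {r : ℝ} (hr : 0 < r) {z : ℂ} (hz : z ≠ 0) :
    Complex.sqrt ((r : ℂ) * z) = Complex.sqrt r * Complex.sqrt z := by
  have hr' : (r : ℂ) ≠ 0 := by exact_mod_cast hr.ne'
  rw [sqrt_eq_exp (mul_ne_zero hr' hz), sqrt_eq_exp hr', sqrt_eq_exp hz, ← Complex.exp_add,
    Complex.log_ofReal_mul hr hz, Complex.ofReal_log hr.le]
  congr 1
  ring

theorem eta_S {z : ℂ} (hz : 0 < z.im) :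
    η (-1 / z) = (Complex.sqrt I)⁻¹ * (Complex.sqrt z * η z) := by
  have := eta_comp_eq_csqrt_I_inv (show z ∈ upperHalfPlaneSet from hz)
  simpa using this

theorem eta_S_sq {z : ℂ} (hz : 0 < z.im) : η (-1 / z) ^ 2 = -I * z * η z ^ 2 := by
  rw [eta_S hz, mul_pow, mul_pow, inv_pow, sqrt_sq', sqrt_sq', Complex.inv_I]
  ring

/-! ### the cocycle -/

/-- `c z + d`. -/
noncomputable def cd (g : SL(2, ℤ)) (z : ℂ) : ℂ := (g 1 0 : ℂ) * z + (g 1 1 : ℂ)

theorem coe_smul_eq (g : SL(2, ℤ)) (τ : ℍ) :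
    ((g • τ : ℍ) : ℂ) = ((g 0 0 : ℂ) * τ + (g 0 1 : ℂ)) / cd g τ := by
  rw [coe_specialLinearGroup_apply]
  simp [cd]

theorem cd_ne_zero (g : SL(2, ℤ)) (τ : ℍ) : cd g τ ≠ 0 := by
  have := denom_ne_zero (g : GL (Fin 2) ℝ) τ
  rwa [ModularGroup.denom_apply] at this

theorem cd_mul (a b : SL(2, ℤ)) (τ : ℍ) : cd (a * b) τ = cd a ((b • τ : ℍ) : ℂ) * cd b τ := by
  have h := cd_ne_zero b τ
  rw [cd, cd, coe_smul_eq, sl2_mul_apply, sl2_mul_apply]
  field_simp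
  push_cast
  unfold cd
  ring

theorem cd_one (z : ℂ) : cd 1 z = 1 := by simp [cd]

/-- Abstract automorphy induction on `Γ₀(N)`, `N = 3, 4`. -/
theorem automorphy_induction (N : ℤ) (hN : N = 3 ∨ N = 4) (G : ℂ → ℂ) (ε : SL(2, ℤ) → ℂ)
    (hε_mul : ∀ a b : SL(2, ℤ), N ∣ a 1 0 → N ∣ b 1 0 → ε (a * b) = ε a * ε b)
    (hε_one : ε 1 = 1) (hε_neg : ε (-1) = -1) (hε_T : ε (upT 1) = 1)
    (hT : ∀ τ : ℍ, G ((τ : ℂ) + 1) = G τ)
    (hU : ∀ τ : ℍ, G ((τ : ℂ) / (N * τ + 1)) = ε (lowU N) * (N * τ + 1) * G τ)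
    (g : SL(2, ℤ)) (hg : N ∣ g 1 0) (τ : ℍ) :
    G ((g • τ : ℍ) : ℂ) = ε g * cd g τ * G τ := by
  have key : N ∣ g 1 0 ∧ ∀ τ : ℍ, G ((g • τ : ℍ) : ℂ) = ε g * cd g τ * G τ := by
    refine gamma0_induction N hN
      (fun g => N ∣ g 1 0 ∧ ∀ τ : ℍ, G ((g • τ : ℍ) : ℂ) = ε g * cd g τ * G τ)
      ?_ ?_ ?_ ?_ ?_ ?_ g hg
    · refine ⟨by simp, fun τ => ?_⟩
      rw [hε_neg, coe_smul_eq]
      simp [cd]
    · refine ⟨by simp, fun τ => ?_⟩
      rw [hε_T, coe_smul_eq]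
      simp [cd, hT]
    · refine ⟨by simp, fun τ => ?_⟩
      rw [coe_smul_eq]
      simp [cd, hU]
    · refine ⟨by simp, fun τ => ?_⟩
      simp [hε_one, cd_one]
    · rintro a b ⟨ha, ha'⟩ ⟨hb, hb'⟩
      refine ⟨?_, fun τ => ?_⟩
      · rw [sl2_mul_apply]
        exact dvd_add (Dvd.dvd.mul_right ha _) (Dvd.dvd.mul_left hb _)
      · rw [mul_smul, ha', hb', hε_mul a b ha hb, cd_mul]
        ring
    · rintro a ⟨ha, ha'⟩
      have hinv : N ∣ (a⁻¹ : SL(2, ℤ)) 1 0 := by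
        rw [Matrix.SpecialLinearGroup.SL2_inv_expl]
        simpa using ha
      refine ⟨hinv, fun τ => ?_⟩
      have h1 := ha' (a⁻¹ • τ)
      rw [smul_inv_smul] at h1
      have h2 : ε a * ε a⁻¹ = 1 := by rw [← hε_mul a a⁻¹ ha hinv, mul_inv_cancel, hε_one]
      have h3 : cd a ((a⁻¹ • τ : ℍ) : ℂ) * cd a⁻¹ τ = 1 := by
        rw [← cd_mul, mul_inv_cancel, cd_one]
      rw [h1]
      calc G ((a⁻¹ • τ : ℍ) : ℂ)
          = (ε a * ε a⁻¹) * (cd a ((a⁻¹ • τ : ℍ) : ℂ) * cd a⁻¹ τ) * G ((a⁻¹ • τ : ℍ) : ℂ) := by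
            rw [h2, h3]; ring
        _ = _ := by ring
  exact key.2 τ

end Fermat.Agent.S36
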