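/-
S36 / [THETA-AN], part 3 (helper31): the two weight one eta quotients without zeros on `ℍ`:
`G4 = η(2τ)^10 / (η(τ)^4 η(4τ)^4)` on `Γ₀(4)` with character `χ₋₄`,
`G9 = η(τ)^3 / η(3τ)` on `Γ₀(9)` with character `χ₋₃` (multiplier system on `Γ₀(3)`).
Mathlib only.
-/
import Mathlib
import Fermat.Agent.S36.EtaLaws

set_option autoImplicit false

open Complex ModularForm Matrix.SpecialLinearGroup
open UpperHalfPlane hiding I
open scoped Real MatrixGroups

namespace Fermat.Agent.S36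

/-- `θ² = η(2τ)^10 / (η(τ)^4 η(4τ)^4)`. -/
noncomputable def G4 (z : ℂ) : ℂ := η (2 * z) ^ 10 / (η z ^ 4 * η (4 * z) ^ 4)

/-- `η(τ)^3 / η(3τ)`. -/
noncomputable def G9 (z : ℂ) : ℂ := η z ^ 3 / η (3 * z)

/-- `η(3τ)^3 / η(τ)` (the Fricke transform of `G9`). -/
noncomputable def G9s (z : ℂ) : ℂ := η (3 * z) ^ 3 / η z

theorem im_nat_mul_pos {z : ℂ} (hz : 0 < z.im) {n : ℕ} (hn : 0 < n) : 0 < ((n : ℂ) * z).im := by
  have : ((n : ℂ) * z).im = n * z.im := by simp
  rw [this]; positivity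

theorem im_two_mul_pos {z : ℂ} (hz : 0 < z.im) : 0 < (2 * z).im := by
  simpa using im_nat_mul_pos hz (n := 2) (by norm_num)
theorem im_three_mul_pos {z : ℂ} (hz : 0 < z.im) : 0 < (3 * z).im := by
  simpa using im_nat_mul_pos hz (n := 3) (by norm_num)
theorem im_four_mul_pos {z : ℂ} (hz : 0 < z.im) : 0 < (4 * z).im := by
  simpa using im_nat_mul_pos hz (n := 4) (by norm_num)

theorem eta_ne_zero' {z : ℂ} (hz : 0 < z.im) : η z ≠ 0 := eta_ne_zero (show z ∈ upperHalfPlaneSet from hz)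

theorem G4_ne_zero {z : ℂ} (hz : 0 < z.im) : G4 z ≠ 0 := by
  unfold G4
  exact div_ne_zero (pow_ne_zero _ (eta_ne_zero' (im_two_mul_pos hz)))
    (mul_ne_zero (pow_ne_zero _ (eta_ne_zero' hz)) (pow_ne_zero _ (eta_ne_zero' (im_four_mul_pos hz))))

theorem G9_ne_zero {z : ℂ} (hz : 0 < z.im) : G9 z ≠ 0 := by
  unfold G9
  exact div_ne_zero (pow_ne_zero _ (eta_ne_zero' hz)) (eta_ne_zero' (im_three_mul_pos hz))

theorem G9s_ne_zero {z : ℂ} (hz : 0 < z.im) : G9s z ≠ 0 := by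
  unfold G9s
  exact div_ne_zero (pow_ne_zero _ (eta_ne_zero' (im_three_mul_pos hz))) (eta_ne_zero' hz)

theorem differentiableAt_eta' {z : ℂ} (hz : 0 < z.im) : DifferentiableAt ℂ η z :=
  differentiableAt_eta_of_mem_upperHalfPlaneSet (show z ∈ upperHalfPlaneSet from hz)

theorem differentiableAt_eta_mul (c : ℂ) {z : ℂ} (hz : 0 < (c * z).im) :
    DifferentiableAt ℂ (fun w => η (c * w)) z :=
  DifferentiableAt.comp (f := fun w => c * w) (g := η) z (differentiableAt_eta' hz) (by fun_prop)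

theorem differentiableAt_G4 {z : ℂ} (hz : 0 < z.im) : DifferentiableAt ℂ G4 z := by
  unfold G4
  refine DifferentiableAt.div ((differentiableAt_eta_mul 2 (im_two_mul_pos hz)).pow 10)
    (((differentiableAt_eta' hz).pow 4).mul ((differentiableAt_eta_mul 4 (im_four_mul_pos hz)).pow 4))
    (mul_ne_zero (pow_ne_zero _ (eta_ne_zero' hz)) (pow_ne_zero _ (eta_ne_zero' (im_four_mul_pos hz))))

theorem differentiableAt_G9 {z : ℂ} (hz : 0 < z.im) : DifferentiableAt ℂ G9 z := by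
  unfold G9
  exact DifferentiableAt.div ((differentiableAt_eta' hz).pow 3)
    (differentiableAt_eta_mul 3 (im_three_mul_pos hz)) (eta_ne_zero' (im_three_mul_pos hz))

/-! ### translation -/

theorem G4_add_one (z : ℂ) : G4 (z + 1) = G4 z := by
  unfold G4
  have h2 : η (2 * (z + 1)) = cexp (π * I / 12) ^ 2 * η (2 * z) := by
    rw [← eta_add_nat]; congr 1; push_cast; ring
  have h4 : η (4 * (z + 1)) = cexp (π * I / 12) ^ 4 * η (4 * z) := by
    rw [← eta_add_nat]; congr 1; push_cast; ring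
  rw [h2, h4, eta_add_one]
  have he : cexp (π * I / 12) ≠ 0 := Complex.exp_ne_zero _
  field_simp

theorem G9_add_one (z : ℂ) : G9 (z + 1) = G9 z := by
  unfold G9
  have h3 : η (3 * (z + 1)) = cexp (π * I / 12) ^ 3 * η (3 * z) := by
    rw [← eta_add_nat]; congr 1; push_cast; ring
  rw [h3, eta_add_one]
  have he : cexp (π * I / 12) ≠ 0 := Complex.exp_ne_zero _
  field_simp

/-- `ω = e^{2πi/3}`. -/
noncomputable def omega3 : ℂ := cexp (2 * π * I / 3)

theorem omega3_ne_zero : omega3 ≠ 0 := Complex.exp_ne_zero _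

theorem omega3_pow_three : omega3 ^ 3 = 1 := by
  unfold omega3
  rw [← Complex.exp_nat_mul]
  have : ((3 : ℕ) : ℂ) * (2 * π * I / 3) = 2 * π * I := by push_cast; ring
  rw [this, Complex.exp_two_pi_mul_I]

theorem G9s_add_one (z : ℂ) : G9s (z + 1) = omega3 * G9s z := by
  unfold G9s
  have h3 : η (3 * (z + 1)) = cexp (π * I / 12) ^ 3 * η (3 * z) := by
    rw [← eta_add_nat]; congr 1; push_cast; ring
  rw [h3, eta_add_one]
  have he : cexp (π * I / 12) ≠ 0 := Complex.exp_ne_zero _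
  have hw : omega3 = cexp (π * I / 12) ^ 8 := by
    unfold omega3
    rw [← Complex.exp_nat_mul]
    congr 1
    push_cast; ring
  rw [hw]
  by_cases h0 : η z = 0
  · simp [h0]
  field_simp

/-! ### Fricke -/

theorem im_neg_one_div_pos {z : ℂ} (hz : 0 < z.im) : 0 < (-1 / z).im := by
  have hz0 : z ≠ 0 := by rintro rfl; simp at hz
  rw [neg_div, one_div, Complex.neg_im, Complex.inv_im]
  have : 0 < Complex.normSq z := Complex.normSq_pos.mpr hz0
  have : 0 < z.im / Complex.normSq z := by positivity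
  rw [neg_div, neg_neg]; exact this

theorem G4_fricke {z : ℂ} (hz : 0 < z.im) : G4 (-1 / (4 * z)) = -2 * I * z * G4 z := by
  have hz0 : z ≠ 0 := by rintro rfl; simp at hz
  unfold G4
  have e2 : (2 : ℂ) * (-1 / (4 * z)) = -1 / (2 * z) := by field_simp; ring
  have e4 : (4 : ℂ) * (-1 / (4 * z)) = -1 / z := by field_simp
  rw [e2, e4]
  have h1 := eta_S_sq hz
  have h2 := eta_S_sq (im_two_mul_pos hz)
  have h4 := eta_S_sq (im_four_mul_pos hz)
  have a1 : η (-1 / z) ^ 4 = (-I * z * η z ^ 2) ^ 2 := by rw [← h1]; ring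
  have a2 : η (-1 / (2 * z)) ^ 10 = (-I * (2 * z) * η (2 * z) ^ 2) ^ 5 := by rw [← h2]; ring
  have a4 : η (-1 / (4 * z)) ^ 4 = (-I * (4 * z) * η (4 * z) ^ 2) ^ 2 := by rw [← h4]; ring
  rw [a1, a2, a4]
  have n1 := eta_ne_zero' hz
  have n4 := eta_ne_zero' (im_four_mul_pos hz)
  have hI : I ≠ 0 := Complex.I_ne_zero
  have hI5 : I ^ 5 = I := by
    rw [show (5 : ℕ) = 4 + 1 by norm_num, pow_add, Complex.I_pow_four]; simp
  field_simp
  ring_nf

theorem G4_sub_one (z : ℂ) : G4 (z - 1) = G4 z := by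
  have := G4_add_one (z - 1)
  rw [sub_add_cancel] at this
  exact this.symm

theorem G9s_sub_one (z : ℂ) : G9s (z - 1) = omega3⁻¹ * G9s z := by
  have := G9s_add_one (z - 1)
  rw [sub_add_cancel] at this
  rw [this, ← mul_assoc, inv_mul_cancel₀ omega3_ne_zero, one_mul]

theorem im_neg_one_div_nat_mul_pos {z : ℂ} (hz : 0 < z.im) {n : ℕ} (hn : 0 < n) :
    0 < (-1 / ((n : ℂ) * z)).im := im_neg_one_div_pos (im_nat_mul_pos hz hn)

theorem nat_mul_add_one_ne_zero {z : ℂ} (hz : 0 < z.im) {n : ℕ} (hn : 0 < n) :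
    (n : ℂ) * z + 1 ≠ 0 := by
  intro h
  have := congrArg Complex.im h
  simp at this
  rcases this with h | h
  · omega
  · exact hz.ne' h

/-- the `U₄`-step. -/
theorem G4_lowU {z : ℂ} (hz : 0 < z.im) : G4 (z / (4 * z + 1)) = (4 * z + 1) * G4 z := by
  have hz0 : z ≠ 0 := by rintro rfl; simp at hz
  have h41 : (4 : ℂ) * z + 1 ≠ 0 := by
    simpa using nat_mul_add_one_ne_zero hz (n := 4) (by norm_num)
  have hw : 0 < (-1 / (4 * z)).im := by
    simpa using im_neg_one_div_nat_mul_pos hz (n := 4) (by norm_num)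
  have hy : 0 < (-1 / (4 * z) - 1).im := by simpa using hw
  have e : z / (4 * z + 1) = -1 / (4 * (-1 / (4 * z) - 1)) := by
    have : (4 : ℂ) * (-1 / (4 * z) - 1) = -(4 * z + 1) / z := by field_simp; ring
    rw [this]
    field_simp
  rw [e, G4_fricke hy, G4_sub_one, G4_fricke hz]
  field_simp
  ring_nf
  simp only [Complex.I_sq]
  ring

/-- Fricke for `G9`, with the explicit constant. -/
theorem G9_fricke {z : ℂ} (hz : 0 < z.im) :
    G9 (-1 / (3 * z)) = (-I * 3 * Complex.sqrt ((3 : ℝ) : ℂ)) * z * G9s z := by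
  have hz0 : z ≠ 0 := by rintro rfl; simp at hz
  unfold G9 G9s
  have e3 : (3 : ℂ) * (-1 / (3 * z)) = -1 / z := by field_simp
  rw [e3, eta_S hz, eta_S (im_three_mul_pos hz)]
  have hs : Complex.sqrt (3 * z) = Complex.sqrt ((3 : ℝ) : ℂ) * Complex.sqrt z := by
    rw [← sqrt_ofReal_mul (by norm_num) hz0]; norm_num
  rw [hs]
  have n1 := eta_ne_zero' hz
  have hsz := sqrt_ne_zero' hz0
  have hsI := sqrt_ne_zero' Complex.I_ne_zero
  have q1 : Complex.sqrt z ^ 2 = z := sqrt_sq' z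
  have q2 : Complex.sqrt ((3 : ℝ) : ℂ) ^ 2 = 3 := by rw [sqrt_sq']; norm_num
  have q3 : Complex.sqrt I ^ 2 = I := sqrt_sq' I
  field_simp
  have : Complex.sqrt ((3 : ℝ) : ℂ) ^ 3 * Complex.sqrt z ^ 2
      = (Complex.sqrt ((3 : ℝ) : ℂ) ^ 2) * Complex.sqrt ((3 : ℝ) : ℂ) * Complex.sqrt z ^ 2 := by ring
  rw [this, q1, q2, q3]
  ring_nf
  simp only [Complex.I_sq]
  ring

/-- the `U₃`-step. -/
theorem G9_lowU {z : ℂ} (hz : 0 < z.im) :
    G9 (z / (3 * z + 1)) = omega3⁻¹ * (3 * z + 1) * G9 z := by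
  have hz0 : z ≠ 0 := by rintro rfl; simp at hz
  have h31 : (3 : ℂ) * z + 1 ≠ 0 := by
    simpa using nat_mul_add_one_ne_zero hz (n := 3) (by norm_num)
  have hw : 0 < (-1 / (3 * z)).im := by
    simpa using im_neg_one_div_nat_mul_pos hz (n := 3) (by norm_num)
  have hy : 0 < (-1 / (3 * z) - 1).im := by simpa using hw
  have e : z / (3 * z + 1) = -1 / (3 * (-1 / (3 * z) - 1)) := by
    have : (3 : ℂ) * (-1 / (3 * z) - 1) = -(3 * z + 1) / z := by field_simp; ring
    rw [this]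
    field_simp
  have e' : z = -1 / (3 * (-1 / (3 * z))) := by field_simp
  have h1 := G9_fricke hy
  have h2 := G9_fricke hw
  rw [← e'] at h2
  rw [e, h1, G9s_sub_one, h2]
  have := omega3_ne_zero
  field_simp
  ring

end Fermat.Agent.S36
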