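/-
S36 / [THETA-AN], part 4 (helper31): automorphy of `G4` on `Γ₀(4)` (character `χ₋₄`) and of
`G9` on `Γ₀(3)` (explicit multiplier) and `Γ₀(9)` (character `χ₋₃`).  Mathlib only.
-/
import Mathlib
import Fermat.Agent.S36.EtaWt1

set_option autoImplicit false

open Complex ModularForm Matrix.SpecialLinearGroup
open UpperHalfPlane hiding I
open scoped Real MatrixGroups

namespace Fermat.Agent.S36

/-- `χ₋₄` on odd integers (junk value `-1` on even ones). -/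
def chi4 (d : ℤ) : ℤ := if d % 4 = 1 then 1 else -1

/-- `χ₋₃` on integers prime to `3` (junk value `-1` on multiples of `3`). -/
def chi3 (d : ℤ) : ℤ := if d % 3 = 1 then 1 else -1

theorem chi4_sq (d : ℤ) : chi4 d * chi4 d = 1 := by unfold chi4; split_ifs <;> norm_num
theorem chi3_sq (d : ℤ) : chi3 d * chi3 d = 1 := by unfold chi3; split_ifs <;> norm_num

theorem chi4_eq_of_emod {d e : ℤ} (h : d % 4 = e % 4) : chi4 d = chi4 e := by
  unfold chi4; rw [h]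
theorem chi3_eq_of_emod {d e : ℤ} (h : d % 3 = e % 3) : chi3 d = chi3 e := by
  unfold chi3; rw [h]

theorem chi4_mul {x y : ℤ} (hx : x % 2 = 1) (hy : y % 2 = 1) : chi4 (x * y) = chi4 x * chi4 y := by
  have hx' : x % 4 = 1 ∨ x % 4 = 3 := by omega
  have hy' : y % 4 = 1 ∨ y % 4 = 3 := by omega
  unfold chi4
  rw [Int.mul_emod]
  rcases hx' with h | h <;> rcases hy' with h' | h' <;> rw [h, h'] <;> norm_num

theorem chi3_mul {x y : ℤ} (hx : x % 3 ≠ 0) (hy : y % 3 ≠ 0) : chi3 (x * y) = chi3 x * chi3 y := by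
  have hx' : x % 3 = 1 ∨ x % 3 = 2 := by omega
  have hy' : y % 3 = 1 ∨ y % 3 = 2 := by omega
  unfold chi3
  rw [Int.mul_emod]
  rcases hx' with h | h <;> rcases hy' with h' | h' <;> rw [h, h'] <;> norm_num

theorem sl2_det (g : SL(2, ℤ)) : g 0 0 * g 1 1 - g 0 1 * g 1 0 = 1 := by
  have := g.det_coe
  rwa [Matrix.det_fin_two] at this

theorem odd_of_four_dvd (g : SL(2, ℤ)) (h : (4 : ℤ) ∣ g 1 0) : g 1 1 % 2 = 1 := by
  obtain ⟨k, hk⟩ := h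
  have := sl2_det g
  rw [hk] at this
  by_contra hne
  have h2 : g 1 1 % 2 = 0 := by omega
  obtain ⟨m, hm⟩ : (2 : ℤ) ∣ g 1 1 := Int.dvd_of_emod_eq_zero h2
  rw [hm] at this
  have : 2 * (g 0 0 * m - g 0 1 * (2 * k)) = 1 := by linarith
  omega

theorem not_three_dvd_of_three_dvd (g : SL(2, ℤ)) (h : (3 : ℤ) ∣ g 1 0) : g 1 1 % 3 ≠ 0 := by
  obtain ⟨k, hk⟩ := h
  have := sl2_det g
  rw [hk] at this
  intro h2
  obtain ⟨m, hm⟩ : (3 : ℤ) ∣ g 1 1 := Int.dvd_of_emod_eq_zero h2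
  rw [hm] at this
  have : 3 * (g 0 0 * m - g 0 1 * k) = 1 := by linarith
  omega

/-- automorphy of `G4` on `Γ₀(4)`. -/
theorem G4_smul (g : SL(2, ℤ)) (hg : (4 : ℤ) ∣ g 1 0) (τ : ℍ) :
    G4 ((g • τ : ℍ) : ℂ) = (chi4 (g 1 1) : ℂ) * cd g τ * G4 τ := by
  refine automorphy_induction 4 (Or.inr rfl) G4 (fun g => (chi4 (g 1 1) : ℂ)) ?_ ?_ ?_ ?_ ?_ ?_ g hg τ
  · intro a b ha hb
    have h1 : chi4 ((a * b) 1 1) = chi4 (a 1 1 * b 1 1) := by
      apply chi4_eq_of_emod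
      rw [sl2_mul_apply]
      obtain ⟨k, hk⟩ := ha
      rw [hk, mul_assoc, Int.add_emod, Int.mul_emod_right, zero_add, Int.emod_emod_of_dvd _ (dvd_refl _)]
    show (chi4 ((a * b) 1 1) : ℂ) = (chi4 (a 1 1) : ℂ) * (chi4 (b 1 1) : ℂ)
    rw [h1, chi4_mul (odd_of_four_dvd a ha) (odd_of_four_dvd b hb)]
    push_cast; ring
  · simp [chi4]
  · simp [chi4]
  · simp [chi4]
  · intro τ; exact G4_add_one _
  · intro τ
    have := G4_lowU τ.im_pos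
    simpa [chi4] using this

/-- automorphy of `G4` on `Γ₀(4)`, raw form. -/
theorem G4_automorphy (a b c d : ℤ) (hdet : a * d - b * c = 1) (hc : (4 : ℤ) ∣ c) {z : ℂ}
    (hz : 0 < z.im) :
    G4 (((a : ℂ) * z + b) / ((c : ℂ) * z + d)) = (chi4 d : ℂ) * ((c : ℂ) * z + d) * G4 z := by
  let g : SL(2, ℤ) := ⟨!![a, b; c, d], by rw [Matrix.det_fin_two_of]; exact hdet⟩
  have := G4_smul g (show (4 : ℤ) ∣ c from hc) ⟨z, hz⟩
  rw [coe_smul_eq g] at this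
  simpa [cd, g] using this

/-! ### `G9` -/

theorem omega3_zpow_three_mul (m : ℤ) : omega3 ^ (3 * m) = 1 := by
  rw [zpow_mul]
  have : omega3 ^ (3 : ℤ) = 1 := by exact_mod_cast omega3_pow_three
  rw [this, one_zpow]

theorem omega3_zpow_eq {k l : ℤ} (h : (3 : ℤ) ∣ k - l) : omega3 ^ k = omega3 ^ l := by
  obtain ⟨m, hm⟩ := h
  have : k = l + 3 * m := by linarith
  rw [this, zpow_add₀ omega3_ne_zero, omega3_zpow_three_mul, mul_one]

/-- the multiplier of `G9` on `Γ₀(3)`. -/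
noncomputable def eps3 (g : SL(2, ℤ)) : ℂ := (chi3 (g 1 1) : ℂ) * omega3 ^ (-((g 1 0 / 3) * g 1 1))

theorem three_dvd_sq_sub_one {D : ℤ} (h : D % 3 ≠ 0) : (3 : ℤ) ∣ D ^ 2 - 1 := by
  have h' : D % 3 = 1 ∨ D % 3 = 2 := by omega
  rcases h' with h | h
  · refine ⟨3 * (D / 3) ^ 2 + 2 * (D / 3), ?_⟩
    have : D = 3 * (D / 3) + 1 := by omega
    generalize D / 3 = s at this
    rw [this]; ring
  · refine ⟨3 * (D / 3) ^ 2 + 4 * (D / 3) + 1, ?_⟩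
    have : D = 3 * (D / 3) + 2 := by omega
    generalize D / 3 = s at this
    rw [this]; ring

theorem eps3_mul (a b : SL(2, ℤ)) (ha : (3 : ℤ) ∣ a 1 0) (hb : (3 : ℤ) ∣ b 1 0) :
    eps3 (a * b) = eps3 a * eps3 b := by
  have hda := not_three_dvd_of_three_dvd a ha
  have hdb := not_three_dvd_of_three_dvd b hb
  have deta := sl2_det a
  have detb := sl2_det b
  obtain ⟨c₁, h₁⟩ := ha
  obtain ⟨c₂, h₂⟩ := hb
  have h1 : chi3 ((a * b) 1 1) = chi3 (a 1 1 * b 1 1) := by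
    apply chi3_eq_of_emod
    rw [sl2_mul_apply, h₁, mul_assoc, Int.add_emod, Int.mul_emod_right, zero_add,
      Int.emod_emod_of_dvd _ (dvd_refl _)]
  unfold eps3
  rw [h1, chi3_mul hda hdb]
  have e1 : (a * b) 1 0 / 3 = c₁ * b 0 0 + a 1 1 * c₂ := by
    rw [sl2_mul_apply, h₁, h₂]
    have : 3 * c₁ * b 0 0 + a 1 1 * (3 * c₂) = 3 * (c₁ * b 0 0 + a 1 1 * c₂) := by ring
    rw [this, Int.mul_ediv_cancel_left _ (by norm_num)]
  have e2 : a 1 0 / 3 = c₁ := by rw [h₁, Int.mul_ediv_cancel_left _ (by norm_num)]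
  have e3 : b 1 0 / 3 = c₂ := by rw [h₂, Int.mul_ediv_cancel_left _ (by norm_num)]
  rw [e1, e2, e3]
  have e4 : (a * b) 1 1 = 3 * c₁ * b 0 1 + a 1 1 * b 1 1 := by rw [sl2_mul_apply, h₁]
  rw [e4]
  obtain ⟨t, ht⟩ := three_dvd_sq_sub_one hda
  rw [h₂] at detb
  have key : omega3 ^ (-((c₁ * b 0 0 + a 1 1 * c₂) * (3 * c₁ * b 0 1 + a 1 1 * b 1 1)))
      = omega3 ^ (-(c₁ * a 1 1) + -(c₂ * b 1 1)) := by
    apply omega3_zpow_eq
    refine ⟨-(c₁ * b 0 1 * (c₁ * b 0 0 + a 1 1 * c₂) + c₁ * a 1 1 * b 0 1 * c₂ + c₂ * b 1 1 * t), ?_⟩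
    have hA : b 0 0 * b 1 1 = 1 + b 0 1 * (3 * c₂) := by linarith
    have hD : a 1 1 ^ 2 = 1 + 3 * t := by linarith
    have : (c₁ * b 0 0 + a 1 1 * c₂) * (3 * c₁ * b 0 1 + a 1 1 * b 1 1)
        = 3 * c₁ * b 0 1 * (c₁ * b 0 0 + a 1 1 * c₂) + c₁ * a 1 1 * (b 0 0 * b 1 1)
          + c₂ * b 1 1 * a 1 1 ^ 2 := by ring
    rw [this, hA, hD]
    ring
  rw [key, zpow_add₀ omega3_ne_zero]
  push_cast
  ring

/-- automorphy of `G9` on `Γ₀(3)`, with multiplier `eps3`. -/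
theorem G9_smul_gamma0_three (g : SL(2, ℤ)) (hg : (3 : ℤ) ∣ g 1 0) (τ : ℍ) :
    G9 ((g • τ : ℍ) : ℂ) = eps3 g * cd g τ * G9 τ := by
  refine automorphy_induction 3 (Or.inl rfl) G9 eps3 eps3_mul ?_ ?_ ?_ ?_ ?_ g hg τ
  · simp [eps3, chi3]
  · simp [eps3, chi3]
  · simp [eps3, chi3]
  · intro τ; exact G9_add_one _
  · intro τ
    have := G9_lowU τ.im_pos
    simpa [eps3, chi3] using this

theorem eps3_of_nine_dvd (g : SL(2, ℤ)) (hg : (9 : ℤ) ∣ g 1 0) : eps3 g = (chi3 (g 1 1) : ℂ) := by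
  obtain ⟨k, hk⟩ := hg
  unfold eps3
  have : g 1 0 / 3 = 3 * k := by
    rw [hk, show (9 : ℤ) * k = 3 * (3 * k) by ring, Int.mul_ediv_cancel_left _ (by norm_num)]
  rw [this, show -(3 * k * g 1 1) = 3 * (-(k * g 1 1)) by ring, omega3_zpow_three_mul, mul_one]

/-- automorphy of `G9` on `Γ₀(9)`. -/
theorem G9_smul (g : SL(2, ℤ)) (hg : (9 : ℤ) ∣ g 1 0) (τ : ℍ) :
    G9 ((g • τ : ℍ) : ℂ) = (chi3 (g 1 1) : ℂ) * cd g τ * G9 τ := by
  rw [G9_smul_gamma0_three g (Dvd.dvd.trans (by norm_num) hg), eps3_of_nine_dvd g hg]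

/-- automorphy of `G9` on `Γ₀(9)`, raw form. -/
theorem G9_automorphy (a b c d : ℤ) (hdet : a * d - b * c = 1) (hc : (9 : ℤ) ∣ c) {z : ℂ}
    (hz : 0 < z.im) :
    G9 (((a : ℂ) * z + b) / ((c : ℂ) * z + d)) = (chi3 d : ℂ) * ((c : ℂ) * z + d) * G9 z := by
  let g : SL(2, ℤ) := ⟨!![a, b; c, d], by rw [Matrix.det_fin_two_of]; exact hdet⟩
  have := G9_smul g (show (9 : ℤ) ∣ c from hc) ⟨z, hz⟩
  rw [coe_smul_eq g] at this
  simpa [cd, g] using this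

end Fermat.Agent.S36
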