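import Fermat.Agent.GAL.OpenStab

/-!
# S36 [H90DESC]: descent of Kummer classes to the invariants of a subgroup of `G_ℚ`

Let `F = laurentBaseChange ℚ̄ F₀ ⊆ ℚ̄((T))` with the coefficientwise action of `G_ℚ`, `H ≤ G_ℚ` any
subgroup, `f ∈ Fˣ` such that `σ f / f` is an `m`-th power in `F` for all `σ ∈ H`.  Then `f` can be
multiplied by an `m`-th power such that it becomes `H`-invariant.

No Hilbert 90 is needed: normalise the leading coefficient of `f` to `1`; `h_σ` := the `m`-th root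
of `σ f / f` of the form `1 + O(T)` is a cocycle with finitely many values; the sum `b` of its
values has constant term `≠ 0` and satisfies `h_τ · τ b = b`.
-/

set_option autoImplicit false

namespace Fermat.Agent.S36

open ModularCurve AlgebraicCurve

local notation "Qbar" => AlgebraicClosure ℚ
local notation "GQ" => (AlgebraicClosure ℚ ≃ₐ[ℚ] AlgebraicClosure ℚ)

section Laurent

variable {C : Type*} [Field C]

/-- Laurent series of the form `1 + O(T)`. -/
def IsOneUnit (x : LaurentSeries C) : Prop := x.order = 0 ∧ x.leadingCoeff = 1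

namespace IsOneUnit

theorem ne_zero {x : LaurentSeries C} (h : IsOneUnit x) : x ≠ 0 := by
  rintro rfl
  have := h.2
  rw [HahnSeries.leadingCoeff_zero] at this
  exact zero_ne_one this

theorem coeff_zero {x : LaurentSeries C} (h : IsOneUnit x) : x.coeff 0 = 1 := by
  have := h.2
  rwa [HahnSeries.leadingCoeff_eq, h.1] at this

theorem one : IsOneUnit (1 : LaurentSeries C) :=
  ⟨HahnSeries.order_one, HahnSeries.leadingCoeff_one⟩

theorem mul {x y : LaurentSeries C} (hx : IsOneUnit x) (hy : IsOneUnit y) : IsOneUnit (x * y) :=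
  ⟨by rw [HahnSeries.order_mul hx.ne_zero hy.ne_zero, hx.1, hy.1, add_zero],
    by rw [HahnSeries.leadingCoeff_mul, hx.2, hy.2, one_mul]⟩

theorem pow {x : LaurentSeries C} (hx : IsOneUnit x) (n : ℕ) : IsOneUnit (x ^ n) := by
  induction n with
  | zero => rw [pow_zero]; exact one
  | succ n ih => rw [pow_succ]; exact ih.mul hx

theorem inv {x : LaurentSeries C} (hx : IsOneUnit x) : IsOneUnit x⁻¹ := by
  have h0 : x⁻¹ ≠ 0 := inv_ne_zero hx.ne_zero
  have h1 : x * x⁻¹ = 1 := mul_inv_cancel₀ hx.ne_zero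
  constructor
  · have := congrArg HahnSeries.order h1
    rwa [HahnSeries.order_mul hx.ne_zero h0, hx.1, zero_add, HahnSeries.order_one] at this
  · have := congrArg HahnSeries.leadingCoeff h1
    rwa [HahnSeries.leadingCoeff_mul, hx.2, one_mul, HahnSeries.leadingCoeff_one] at this

theorem eq_one_of_pow [CharZero C] {w : LaurentSeries C} (hw : IsOneUnit w) {m : ℕ} (hm : m ≠ 0)
    (h : w ^ m = 1) : w = 1 := by
  have h1 : (w - 1) * ∑ i ∈ Finset.range m, w ^ i = 0 := by
    rw [mul_comm, geom_sum_mul, h, sub_self]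
  have h2 : (∑ i ∈ Finset.range m, w ^ i) ≠ 0 := by
    intro h0
    have := congrArg (fun z : LaurentSeries C => z.coeff 0) h0
    simp only [HahnSeries.coeff_sum, HahnSeries.coeff_zero] at this
    rw [Finset.sum_congr rfl fun i _ => (hw.pow i).coeff_zero] at this
    simp at this
    exact hm this
  rcases mul_eq_zero.mp h1 with h3 | h3
  · exact sub_eq_zero.mp h3
  · exact absurd h3 h2

end IsOneUnit

theorem order_coeffMap {D : Type*} [Field D] (σ : C →+* D) (x : LaurentSeries C) :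
    (coeffMap σ x).order = x.order := by
  rcases eq_or_ne x 0 with rfl | hx
  · rw [map_zero, HahnSeries.order_zero, HahnSeries.order_zero]
  have hx' : coeffMap σ x ≠ 0 := (map_ne_zero (coeffMap σ)).mpr hx
  refine le_antisymm ?_ ?_
  · refine HahnSeries.order_le_of_coeff_ne_zero ?_
    rw [coeffMap_coeff]
    exact (map_ne_zero σ).mpr (fun h => hx (HahnSeries.coeff_order_eq_zero.mp h))
  · refine HahnSeries.order_le_of_coeff_ne_zero ?_
    have : (ModularCurve.coeffMap σ x).coeff (ModularCurve.coeffMap σ x).order ≠ 0 :=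
      fun h => hx' (HahnSeries.coeff_order_eq_zero.mp h)
    rw [coeffMap_coeff] at this
    exact (map_ne_zero σ).mp this

theorem leadingCoeff_coeffMap {D : Type*} [Field D] (σ : C →+* D) (x : LaurentSeries C) :
    (coeffMap σ x).leadingCoeff = σ x.leadingCoeff := by
  rw [HahnSeries.leadingCoeff_eq, HahnSeries.leadingCoeff_eq, order_coeffMap, coeffMap_coeff]

theorem leadingCoeff_pow' (x : LaurentSeries C) (n : ℕ) :
    (x ^ n).leadingCoeff = x.leadingCoeff ^ n := by
  induction n with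
  | zero => simp
  | succ n ih => rw [pow_succ, HahnSeries.leadingCoeff_mul, ih, pow_succ]

theorem IsOneUnit.coeffMap {D : Type*} [Field D] (σ : C →+* D) {x : LaurentSeries C}
    (hx : IsOneUnit x) : IsOneUnit (coeffMap σ x) :=
  ⟨by rw [order_coeffMap, hx.1], by rw [leadingCoeff_coeffMap, hx.2, map_one]⟩

end Laurent

section Abstract

/-- The abstract averaging argument. -/
theorem exists_invariant_abstract {G E X : Type*} [Group G] [Field E] [MulSemiringAction G E]
    [Finite X] {m : ℕ} (hm : m ≠ 0) (P : E → Prop) (P1 : P 1)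
    (Pmul : ∀ u v, P u → P v → P (u * v)) (Psmul : ∀ (σ : G) u, P u → P (σ • u))
    (Puniq : ∀ u v, P u → P v → u ^ m = v ^ m → u = v)
    (Psum : ∀ S : Finset E, (∀ y ∈ S, P y) → S.Nonempty → ∑ y ∈ S, y ≠ 0)
    (f : E) (hf0 : f ≠ 0) (h1 : ∀ σ : G, ∃ u : E, P u ∧ σ • f = f * u ^ m)
    (r : G → X) (hr : ∀ σ σ' : G, r σ = r σ' → (σ⁻¹ * σ') • f = f) :
    ∃ b : E, b ≠ 0 ∧ ∀ σ : G, σ • (f * b ^ m) = f * b ^ m := by
  classical
  choose c hc1 hc2 using h1
  have huniq : ∀ (σ : G) (u : E), P u → σ • f = f * u ^ m → u = c σ := fun σ u hu1 hu2 =>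
    Puniq _ _ hu1 (hc1 σ) (mul_left_cancel₀ hf0 (hu2.symm.trans (hc2 σ)))
  have hcoc : ∀ σ τ : G, c (σ * τ) = c σ * σ • c τ := fun σ τ => by
    refine (huniq (σ * τ) _ (Pmul _ _ (hc1 σ) (Psmul σ _ (hc1 τ))) ?_).symm
    rw [mul_smul, hc2 τ, smul_mul', smul_pow', hc2 σ, mul_pow, mul_assoc]
  have htriv : ∀ u : G, u • f = f → c u = 1 := fun u hu => by
    refine (huniq u 1 P1 ?_).symm
    rw [hu, one_pow, mul_one]
  have hfac : ∀ σ σ' : G, r σ = r σ' → c σ = c σ' := fun σ σ' h => by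
    have h2 : σ' = σ * (σ⁻¹ * σ') := by group
    rw [h2, hcoc, htriv _ (hr σ σ' h), smul_one, mul_one]
  have hfin : (Set.range c).Finite := by
    have h3 : Set.range c ⊆ Set.range (fun ψ : Set.range r => c ψ.2.choose) := by
      rintro _ ⟨σ, rfl⟩
      refine ⟨⟨r σ, σ, rfl⟩, ?_⟩
      exact hfac _ _ (Exists.choose_spec (⟨σ, rfl⟩ : ∃ σ', r σ' = r σ))
    exact (Set.finite_range _).subset h3
  set S : Finset E := hfin.toFinset with hS
  have hSmem : ∀ y, y ∈ S ↔ ∃ σ, c σ = y := fun y => by rw [hS, Set.Finite.mem_toFinset]; rfl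
  set b : E := ∑ y ∈ S, y with hb
  have hb0 : b ≠ 0 := by
    refine Psum S (fun y hy => ?_) ⟨c 1, (hSmem _).mpr ⟨1, rfl⟩⟩
    obtain ⟨σ, rfl⟩ := (hSmem y).mp hy
    exact hc1 σ
  have hc0 : ∀ τ, c τ ≠ 0 := fun τ h0 => by
    have := hc2 τ
    rw [h0, zero_pow hm, mul_zero] at this
    exact hf0 ((smul_eq_zero_iff_eq τ).mp this)
  have hτb : ∀ τ : G, c τ * τ • b = b := fun τ => by
    rw [hb, Finset.smul_sum, Finset.mul_sum]
    refine Finset.sum_bij' (fun y _ => c τ * τ • y) (fun y _ => τ⁻¹ • ((c τ)⁻¹ * y)) ?_ ?_ ?_ ?_ ?_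
    · intro y hy
      obtain ⟨σ, rfl⟩ := (hSmem y).mp hy
      exact (hSmem _).mpr ⟨τ * σ, hcoc τ σ⟩
    · intro y hy
      obtain ⟨σ, rfl⟩ := (hSmem y).mp hy
      refine (hSmem _).mpr ⟨τ⁻¹ * σ, ?_⟩
      have h8 : c σ = c τ * τ • c (τ⁻¹ * σ) := by
        rw [← hcoc]; congr 1; group
      rw [h8, ← mul_assoc, inv_mul_cancel₀ (hc0 τ), one_mul, inv_smul_smul]
    · intro y _
      rw [← mul_assoc, inv_mul_cancel₀ (hc0 τ), one_mul, inv_smul_smul]
    · intro y _
      rw [smul_inv_smul, ← mul_assoc, mul_inv_cancel₀ (hc0 τ), one_mul]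
    · intro y _
      rfl
  refine ⟨b, hb0, fun σ => ?_⟩
  rw [smul_mul', smul_pow', hc2 σ, mul_assoc, ← mul_pow, hτb σ]

end Abstract

section Main

variable (F₀ : IntermediateField ℚ (LaurentSeries ℚ))

local notation "FF" => laurentBaseChange Qbar F₀

theorem coe_smul' (σ : GQ) (x : FF) :
    ((arithmeticGalois F₀ σ • x : FF) : LaurentSeries Qbar)
      = coeffMap (σ : Qbar →+* Qbar) (x : LaurentSeries Qbar) :=
  coe_arithmeticGalois_smul F₀ σ x

theorem coe_algebraMap' (a : Qbar) :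
    ((algebraMap Qbar FF a : FF) : LaurentSeries Qbar) = HahnSeries.single 0 a :=
  algebraMap_laurentSeries_eq_single _ a

theorem order_algebraMap' (a : Qbar) :
    ((algebraMap Qbar FF a : FF) : LaurentSeries Qbar).order = 0 := by
  rw [coe_algebraMap']
  rcases eq_or_ne a 0 with rfl | ha
  · simp
  · exact HahnSeries.order_single ha

theorem leadingCoeff_algebraMap' (a : Qbar) :
    ((algebraMap Qbar FF a : FF) : LaurentSeries Qbar).leadingCoeff = a := by
  rw [coe_algebraMap', HahnSeries.leadingCoeff_of_single]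

theorem mul_smul'' (σ τ : GQ) (x : FF) :
    arithmeticGalois F₀ (σ * τ) • x = arithmeticGalois F₀ σ • arithmeticGalois F₀ τ • x := by
  rw [(arithmeticGalois F₀).map_mul, mul_smul]

theorem inv_smul_smul'' (σ : GQ) (x : FF) :
    arithmeticGalois F₀ σ⁻¹ • arithmeticGalois F₀ σ • x = x := by
  rw [(arithmeticGalois F₀).map_inv, inv_smul_smul]

theorem smul_inv_smul'' (σ : GQ) (x : FF) :
    arithmeticGalois F₀ σ • arithmeticGalois F₀ σ⁻¹ • x = x := by
  rw [(arithmeticGalois F₀).map_inv, smul_inv_smul]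

theorem smul_mul'' (σ : GQ) (x y : FF) :
    arithmeticGalois F₀ σ • (x * y) = arithmeticGalois F₀ σ • x * arithmeticGalois F₀ σ • y :=
  map_mul (SemilinearAut.toRingAut (arithmeticGalois F₀ σ)) x y

theorem smul_pow'' (σ : GQ) (x : FF) (n : ℕ) :
    arithmeticGalois F₀ σ • (x ^ n) = (arithmeticGalois F₀ σ • x) ^ n :=
  map_pow (SemilinearAut.toRingAut (arithmeticGalois F₀ σ)) x n

/-- uniqueness of normalised roots -/
theorem eq_of_pow_eq {m : ℕ} (hm : m ≠ 0) {u v : FF} (hu : IsOneUnit (u : LaurentSeries Qbar))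
    (hv : IsOneUnit (v : LaurentSeries Qbar)) (h : u ^ m = v ^ m) : u = v := by
  have hv0 : (v : LaurentSeries Qbar) ≠ 0 := hv.ne_zero
  have h' : (u : LaurentSeries Qbar) ^ m = (v : LaurentSeries Qbar) ^ m := by
    exact_mod_cast congrArg (fun z : FF => (z : LaurentSeries Qbar)) h
  have h1 : ((u : LaurentSeries Qbar) * (v : LaurentSeries Qbar)⁻¹) ^ m = 1 := by
    rw [mul_pow, h', inv_pow, mul_inv_cancel₀ (pow_ne_zero m hv0)]
  have h2 := (hu.mul hv.inv).eq_one_of_pow hm h1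
  apply Subtype.ext
  field_simp at h2
  exact h2

/-- existence of the normalised root, for `f` with leading coefficient `1` -/
theorem exists_isOneUnit_root {m : ℕ} (hm : m ≠ 0) {f : FF}
    (hf : (f : LaurentSeries Qbar).leadingCoeff = 1) {σ : GQ} {v : FF}
    (h : arithmeticGalois F₀ σ • f = f * v ^ m) :
    ∃ u : FF, IsOneUnit (u : LaurentSeries Qbar) ∧ arithmeticGalois F₀ σ • f = f * u ^ m := by
  have hf0 : (f : LaurentSeries Qbar) ≠ 0 := by
    intro h0
    rw [h0, HahnSeries.leadingCoeff_zero] at hf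
    exact zero_ne_one hf
  have h' : coeffMap (σ : Qbar →+* Qbar) (f : LaurentSeries Qbar)
      = (f : LaurentSeries Qbar) * (v : LaurentSeries Qbar) ^ m := by
    rw [← coe_smul', h]; rfl
  have hv0 : (v : LaurentSeries Qbar) ≠ 0 := by
    intro h0
    rw [h0, zero_pow hm, mul_zero] at h'
    exact hf0 ((map_eq_zero _).mp h')
  have hord : (v : LaurentSeries Qbar).order = 0 := by
    have := congrArg HahnSeries.order h'
    rw [order_coeffMap, HahnSeries.order_mul hf0 (pow_ne_zero m hv0), HahnSeries.order_pow] at this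
    have h2 : m • (v : LaurentSeries Qbar).order = 0 := by linarith
    rcases smul_eq_zero.mp h2 with h3 | h3
    · exact absurd h3 hm
    · exact h3
  set e : Qbar := (v : LaurentSeries Qbar).leadingCoeff with he
  have he0 : e ≠ 0 := HahnSeries.leadingCoeff_ne_zero.mpr hv0
  have hem : e ^ m = 1 := by
    have := congrArg HahnSeries.leadingCoeff h'
    rw [leadingCoeff_coeffMap, hf, HahnSeries.leadingCoeff_mul, hf, one_mul] at this
    rw [leadingCoeff_pow', ← he] at this
    simpa using this.symm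
  refine ⟨v * algebraMap Qbar FF e⁻¹, ⟨?_, ?_⟩, ?_⟩
  · show ((v : LaurentSeries Qbar) * ((algebraMap Qbar FF e⁻¹ : FF) : LaurentSeries Qbar)).order = 0
    have h4 : ((algebraMap Qbar FF e⁻¹ : FF) : LaurentSeries Qbar) ≠ 0 := by
      rw [coe_algebraMap']
      exact HahnSeries.single_ne_zero (inv_ne_zero he0)
    rw [HahnSeries.order_mul hv0 h4, hord, order_algebraMap', add_zero]
  · show ((v : LaurentSeries Qbar)
      * ((algebraMap Qbar FF e⁻¹ : FF) : LaurentSeries Qbar)).leadingCoeff = 1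
    rw [HahnSeries.leadingCoeff_mul, leadingCoeff_algebraMap', ← he, mul_inv_cancel₀ he0]
  · rw [h, mul_pow, ← map_pow, inv_pow, hem, inv_one, map_one, mul_one]

/-- **[H90DESC]**, normalised form. -/
theorem exists_invariant_mul_pow_aux {m : ℕ} (hm : m ≠ 0) (H : Subgroup GQ) (f : FF)
    (hf : (f : LaurentSeries Qbar).leadingCoeff = 1)
    (h : ∀ σ ∈ H, ∃ u : FF, arithmeticGalois F₀ σ • f = f * u ^ m) :
    ∃ b : FF, b ≠ 0 ∧ ∀ σ ∈ H, arithmeticGalois F₀ σ • (f * b ^ m) = f * b ^ m := by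
  classical
  have hf0 : f ≠ 0 := by
    rintro rfl
    rw [show (((0 : FF) : LaurentSeries Qbar)) = 0 from rfl, HahnSeries.leadingCoeff_zero] at hf
    exact zero_ne_one hf
  let _ : MulSemiringAction H FF :=
    MulSemiringAction.compHom FF ((arithmeticGalois F₀).comp H.subtype)
  have hact : ∀ (σ : H) (x : FF), σ • x = arithmeticGalois F₀ (σ : GQ) • x := fun _ _ => rfl
  obtain ⟨L, hL, hLf⟩ := Fermat.Agent.GAL.exists_finiteLevel_function F₀ f
  have : Finite (L →ₐ[ℚ] Qbar) := inferInstance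
  obtain ⟨b, hb0, hb⟩ := exists_invariant_abstract (G := H) (E := FF) hm
    (fun u : FF => IsOneUnit (u : LaurentSeries Qbar)) IsOneUnit.one
    (fun u v hu hv => hu.mul hv)
    (fun σ u hu => by
      show IsOneUnit ((arithmeticGalois F₀ (σ : GQ) • u : FF) : LaurentSeries Qbar)
      rw [coe_smul']; exact hu.coeffMap _)
    (fun u v hu hv huv => eq_of_pow_eq F₀ hm hu hv huv)
    (fun S hS hne h0 => by
      have h4 : ((∑ y ∈ S, y : FF) : LaurentSeries Qbar).coeff 0 = (S.card : Qbar) := by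
        have : ((∑ y ∈ S, y : FF) : LaurentSeries Qbar) = ∑ y ∈ S, (y : LaurentSeries Qbar) :=
          map_sum (laurentBaseChange Qbar F₀).val _ _
        rw [this, HahnSeries.coeff_sum, Finset.sum_congr rfl (g := fun _ => (1 : Qbar))]
        · simp
        · intro y hy
          exact (hS y hy).coeff_zero
      rw [h0] at h4
      have h5 : (S.card : Qbar) = 0 := h4.symm
      have h6 : S.card = 0 := by exact_mod_cast h5
      exact hne.card_pos.ne' h6)
    f hf0
    (fun σ => by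
      obtain ⟨v, hv⟩ := h σ σ.2
      exact exists_isOneUnit_root F₀ hm hf hv)
    (fun σ : H => ((σ : GQ) : Qbar →ₐ[ℚ] Qbar).comp L.val)
    (fun σ σ' hr => by
      rw [hact]
      refine hLf _ fun y hy => ?_
      have h3 : (σ : GQ) y = (σ' : GQ) y := DFunLike.congr_fun hr ⟨y, hy⟩
      show ((σ : GQ)⁻¹ * (σ' : GQ)) y = y
      rw [AlgEquiv.mul_apply, ← h3]
      exact (σ : GQ).symm_apply_apply y)
  exact ⟨b, hb0, fun σ hσ => hb ⟨σ, hσ⟩⟩

/-- **[H90DESC]**: if the Kummer class of `f` modulo `m`-th powers is invariant under the subgroup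
`H` of `G_ℚ`, then it contains an `H`-invariant function. -/
theorem exists_invariant_mul_pow {m : ℕ} (hm : m ≠ 0) (H : Subgroup GQ) (f : FF) (hf : f ≠ 0)
    (h : ∀ σ ∈ H, ∃ u : FF, arithmeticGalois F₀ σ • f = f * u ^ m) :
    ∃ b : FF, b ≠ 0 ∧ ∀ σ ∈ H, arithmeticGalois F₀ σ • (f * b ^ m) = f * b ^ m := by
  have hf0 : (f : LaurentSeries Qbar) ≠ 0 := fun h0 => hf (Subtype.ext h0)
  obtain ⟨a, ha⟩ : ∃ a : Qbar, a = (f : LaurentSeries Qbar).leadingCoeff := ⟨_, rfl⟩
  have ha0 : a ≠ 0 := ha ▸ HahnSeries.leadingCoeff_ne_zero.mpr hf0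
  obtain ⟨d, hd⟩ := IsAlgClosed.exists_pow_nat_eq a (Nat.pos_of_ne_zero hm)
  have hd0 : d ≠ 0 := by
    rintro rfl
    rw [zero_pow hm] at hd
    exact ha0 hd.symm
  obtain ⟨D, hD⟩ : ∃ D : FF, D = algebraMap Qbar FF d⁻¹ := ⟨_, rfl⟩
  have hD0 : D ≠ 0 := hD ▸ (map_ne_zero _).mpr (inv_ne_zero hd0)
  have k1 : ((f * D ^ m : FF) : LaurentSeries Qbar).leadingCoeff = 1 := by
    show ((f : LaurentSeries Qbar) * ((D ^ m : FF) : LaurentSeries Qbar)).leadingCoeff = 1
    rw [hD, ← map_pow, HahnSeries.leadingCoeff_mul, leadingCoeff_algebraMap', ← ha, inv_pow, hd,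
      mul_inv_cancel₀ ha0]
  have k2 : ∀ σ ∈ H, ∃ u : FF, arithmeticGalois F₀ σ • (f * D ^ m) = f * D ^ m * u ^ m := by
    intro σ hσ
    obtain ⟨u, hu⟩ := h σ hσ
    obtain ⟨g, hg⟩ : ∃ g : FF ≃+* FF, ∀ x, arithmeticGalois F₀ σ • x = g x :=
      ⟨SemilinearAut.toRingAut (arithmeticGalois F₀ σ), fun _ => rfl⟩
    rw [hg] at hu
    refine ⟨u * g D * D⁻¹, ?_⟩
    have hD1 : D ^ m ≠ 0 := pow_ne_zero m hD0
    rw [hg, map_mul, map_pow, hu, mul_pow, mul_pow, inv_pow]
    calc f * u ^ m * g D ^ m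
        = f * (D ^ m * (D ^ m)⁻¹) * (u ^ m * g D ^ m) := by
          rw [mul_inv_cancel₀ hD1, mul_one, mul_assoc]
      _ = f * D ^ m * (u ^ m * g D ^ m * (D ^ m)⁻¹) := by ring
  obtain ⟨b, hb0, hb⟩ := exists_invariant_mul_pow_aux F₀ hm H (f * D ^ m) k1 k2
  refine ⟨D * b, mul_ne_zero hD0 hb0, fun σ hσ => ?_⟩
  have := hb σ hσ
  rwa [mul_assoc, ← mul_pow] at this

end Main

end Fermat.Agent.S36
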